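import Fermat.Agent.S59.NMP.H134.SelSpec
import Fermat.Agent.S59.NMP.H649.ValFinAux

/-!
# Row S59, cell NMP, leaf SEL — compactness: `VALFIN ⟹ LOCVAL` (helper254)

`exists_forall_good_h254`: over a complete Noetherian local ring `A` with finite residue field,
a decreasing family of properties `Good k` of elements of `A`, where `Good k` depends only on the
class modulo `𝔪 ^ k` and is satisfiable for every `k`, is simultaneously satisfiable
(König's lemma on the finite sets `A ⧸ 𝔪 ^ k` + completeness).

`locVal_of_valFin : NMP.H134.ValFinStatement → NMP.H134.LocValStatement`.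
-/

set_option autoImplicit false
set_option linter.style.haveILetI false
set_option linter.unusedSectionVars false
set_option linter.unusedVariables false

open IsLocalRing

namespace Fermat.Agent.S59.NMP.H254

section Konig

variable {A : Type} [CommRing A] [IsLocalRing A] [IsNoetherianRing A]
  [Finite (ResidueField A)]

theorem finite_quotient_maximalIdeal_pow_h254 (k : ℕ) : Finite (A ⧸ maximalIdeal A ^ k) := by
  haveI : Finite (A ⧸ maximalIdeal A) := ‹Finite (ResidueField A)›
  exact Ideal.finite_quotient_pow (IsNoetherian.noetherian (maximalIdeal A)) k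

theorem good_of_le_h254 {Good : ℕ → A → Prop} (hmono : ∀ k v, Good (k + 1) v → Good k v)
    {k j : ℕ} (h : k ≤ j) {v : A} (hv : Good j v) : Good k v := by
  induction j, h using Nat.le_induction with
  | base => exact hv
  | succ j _ ih => exact ih (hmono j v hv)

/-- The persistent elements at level `k`: those which are congruent modulo `𝔪 ^ k` to a good
element of every higher level. -/
def Pers (Good : ℕ → A → Prop) (k : ℕ) (v : A) : Prop :=
  ∀ j, k ≤ j → ∃ v' : A, Good j v' ∧ v' - v ∈ maximalIdeal A ^ k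

/-- **König step.**  A persistent element of level `k` is congruent modulo `𝔪 ^ k` to a
persistent element of level `k + 1`. -/
theorem exists_pers_succ_h254 {Good : ℕ → A → Prop}
    (hmono : ∀ k v, Good (k + 1) v → Good k v) {k : ℕ} {v : A} (hv : Pers Good k v) :
    ∃ v' : A, Pers Good (k + 1) v' ∧ v' - v ∈ maximalIdeal A ^ k := by
  classical
  by_contra hcon
  have hcon' : ∀ v' : A, v' - v ∈ maximalIdeal A ^ k →
      ∃ j, k + 1 ≤ j ∧ ∀ u : A, Good j u → u - v' ∉ maximalIdeal A ^ (k + 1) := by
    intro v' hv'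
    by_contra h
    apply hcon
    refine ⟨v', fun j hj => ?_, hv'⟩
    by_contra h2
    apply h
    refine ⟨j, hj, fun u hu hmem => h2 ⟨u, hu, hmem⟩⟩
  haveI : Finite (A ⧸ maximalIdeal A ^ (k + 1)) := finite_quotient_maximalIdeal_pow_h254 (k + 1)
  letI : Fintype (A ⧸ maximalIdeal A ^ (k + 1)) := Fintype.ofFinite _
  let rep : A ⧸ maximalIdeal A ^ (k + 1) → A := fun c => Quotient.out c
  have hrep : ∀ c, Ideal.Quotient.mk (maximalIdeal A ^ (k + 1)) (rep c) = c := fun c =>
    Quotient.out_eq c
  let J : A ⧸ maximalIdeal A ^ (k + 1) → ℕ := fun c =>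
    if h : rep c - v ∈ maximalIdeal A ^ k then (hcon' (rep c) h).choose else 0
  let jmax : ℕ := (Finset.univ.sup J) ⊔ k
  obtain ⟨u, hu, huv⟩ := hv jmax le_sup_right
  set c := Ideal.Quotient.mk (maximalIdeal A ^ (k + 1)) u with hc
  have h1 : rep c - u ∈ maximalIdeal A ^ (k + 1) := by
    rw [← Ideal.Quotient.eq, hrep c]
  have h2 : rep c - v ∈ maximalIdeal A ^ k := by
    have : rep c - v = (rep c - u) + (u - v) := by ring
    rw [this]
    exact Ideal.add_mem _ (Ideal.pow_le_pow_right (Nat.le_succ k) h1) huv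
  have hJ : J c = (hcon' (rep c) h2).choose := dif_pos h2
  obtain ⟨-, hbad⟩ := (hcon' (rep c) h2).choose_spec
  have hle : J c ≤ jmax := le_sup_of_le_left (Finset.le_sup (f := J) (Finset.mem_univ c))
  have hgood : Good (J c) u := good_of_le_h254 hmono hle hu
  rw [hJ] at hgood
  apply hbad u hgood
  have : u - rep c = -(rep c - u) := by ring
  rw [this]
  exact Ideal.neg_mem_iff _ |>.mpr h1

/-- **Compactness.**  A decreasing family of properties `Good k`, each depending only on the
class modulo `𝔪 ^ k` and satisfiable, is simultaneously satisfiable. -/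
theorem exists_forall_good_h254 [IsAdicComplete (maximalIdeal A) A] {Good : ℕ → A → Prop}
    (hmono : ∀ k v, Good (k + 1) v → Good k v)
    (hcongr : ∀ k v v', v - v' ∈ maximalIdeal A ^ k → Good k v → Good k v')
    (hex : ∀ k, ∃ v, Good k v) : ∃ v : A, ∀ k, Good k v := by
  classical
  have h0 : Pers Good 0 (0 : A) := by
    intro j _
    obtain ⟨v, hv⟩ := hex j
    exact ⟨v, hv, by rw [pow_zero, Ideal.one_eq_top]; exact Submodule.mem_top⟩
  -- the sequence
  let F : ∀ k : ℕ, {v : A // Pers Good k v} := fun k =>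
    Nat.rec (motive := fun k => {v : A // Pers Good k v}) ⟨0, h0⟩
      (fun k w => ⟨(exists_pers_succ_h254 hmono w.2).choose,
        (exists_pers_succ_h254 hmono w.2).choose_spec.1⟩) k
  have hF : ∀ k, ((F (k + 1) : A) - (F k : A)) ∈ maximalIdeal A ^ k := fun k =>
    (exists_pers_succ_h254 hmono (F k).2).choose_spec.2
  have hcauchy : ∀ {m n : ℕ}, m ≤ n → ((F n : A) - (F m : A)) ∈ maximalIdeal A ^ m := by
    intro m n hmn
    induction n, hmn using Nat.le_induction with
    | base => rw [sub_self]; exact Ideal.zero_mem _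
    | succ n hmn ih =>
      have : (F (n + 1) : A) - (F m : A) = ((F (n + 1) : A) - (F n : A)) + ((F n : A) - F m) := by
        ring
      rw [this]
      exact Ideal.add_mem _ (Ideal.pow_le_pow_right hmn (hF n)) ih
  obtain ⟨L, hL⟩ := IsPrecomplete.prec (I := maximalIdeal A) (M := A) inferInstance
    (f := fun k => (F k : A)) (fun {m n} hmn => by
      rw [SModEq.sub_mem, smul_eq_mul, Ideal.mul_top]
      have := hcauchy hmn
      have h2 : (F m : A) - (F n : A) = -((F n : A) - (F m : A)) := by ring
      rw [h2]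
      exact (Ideal.neg_mem_iff _).mpr this)
  refine ⟨L, fun k => ?_⟩
  obtain ⟨v', hv', hv'F⟩ := (F k).2 k le_rfl
  refine hcongr k v' L ?_ hv'
  have h1 : (F k : A) - L ∈ maximalIdeal A ^ k := by
    have := hL k
    rwa [SModEq.sub_mem, smul_eq_mul, Ideal.mul_top] at this
  have : v' - L = (v' - (F k : A)) + ((F k : A) - L) := by ring
  rw [this]
  exact Ideal.add_mem _ hv'F h1

end Konig

/-- **LOCVAL from VALFIN** (compactness). -/
theorem locVal_of_valFin (h : Fermat.Agent.S59.NMP.H134.ValFinStatement) :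
    Fermat.Agent.S59.NMP.H134.LocValStatement := by
  intro p _ hp2 A _ _ _ _ _ ρ hdet P hP L hL σ hσ z hz
  classical
  let Good : ℕ → A → Prop := fun k v =>
    (z ^ 2 - 1) * v ∈ maximalIdeal A ^ k ∧
      ∀ I : Ideal A, maximalIdeal A ^ k ≤ I → v ∈ I →
        Fermat.Agent.S59.NMP.H134.IsPeuMod p ρ P I
  have hmono : ∀ k v, Good (k + 1) v → Good k v := by
    intro k v hv
    exact ⟨Ideal.pow_le_pow_right (Nat.le_succ k) hv.1, fun I hI hvI =>
      hv.2 I ((Ideal.pow_le_pow_right (Nat.le_succ k)).trans hI) hvI⟩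
  have hcongr : ∀ k v v', v - v' ∈ maximalIdeal A ^ k → Good k v → Good k v' := by
    intro k v v' hvv' hv
    refine ⟨?_, fun I hI hv'I => hv.2 I hI ?_⟩
    · have : (z ^ 2 - 1) * v' = (z ^ 2 - 1) * v - (z ^ 2 - 1) * (v - v') := by ring
      rw [this]
      exact Ideal.sub_mem _ hv.1 (Ideal.mul_mem_left _ _ hvv')
    · have : v = v' + (v - v') := by ring
      rw [this]
      exact Ideal.add_mem _ hv'I (hI hvv')
  have hex : ∀ k, ∃ v, Good k v := by
    intro k
    haveI : Finite (A ⧸ maximalIdeal A ^ k) := finite_quotient_maximalIdeal_pow_h254 k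
    obtain ⟨v, hv1, hv2⟩ := h p hp2 A ρ hdet P hP L hL σ hσ z hz (maximalIdeal A ^ k) inferInstance
    exact ⟨v, hv1, hv2⟩
  obtain ⟨v, hv⟩ := exists_forall_good_h254 hmono hcongr hex
  refine ⟨v, ?_, fun I hIfin hvI => ?_⟩
  · have hmem : ∀ k : ℕ, (z ^ 2 - 1) * v ∈ maximalIdeal A ^ k := fun k => (hv k).1
    have hH : IsHausdorff (maximalIdeal A) A := inferInstance
    refine hH.haus _ (fun k => ?_)
    rw [SModEq.zero, smul_eq_mul, Ideal.mul_top]
    exact hmem k
  · haveI := hIfin
    by_cases hI : I = ⊤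
    · refine (hv 0).2 I ?_ hvI
      rw [hI]
      exact le_top
    · obtain ⟨N, hN⟩ := Fermat.Agent.S59.NMP.H649.exists_maximalIdeal_pow_le_h649 I hI
      exact (hv N).2 I hN hvI

end Fermat.Agent.S59.NMP.H254
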