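import Fermat.Agent.S59.NMP.H134.SelSpec
import Fermat.Agent.S59.H779.FlatLevels
import Fermat.Agent.S59.H659.FlatClosed

/-!
# Row S59, cell NMP, leaf SEL — `LOCVAL + PEUHOPF ⟹ LOCFLAT` (helper254)

`locFlat_of : NMP.H134.LocValStatement → NMP.H134.PeuHopfStatement → NMP.H134.LocFlatStatement`:
the quotient of `ρ` by the Kummer valuation element `v` is flat at `p`, because each of its
finite levels is (the base change of) a finite level `I ∋ v` of `ρ`, which is peu ramifié, hence
has a Hopf model.
-/

set_option autoImplicit false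
set_option linter.style.haveILetI false
set_option linter.unusedSectionVars false
set_option linter.unusedVariables false

open IsLocalRing

namespace Fermat.Agent.S59.NMP.H254

/-- **LOCFLAT from LOCVAL and PEUHOPF.** -/
theorem locFlat_of (hV : Fermat.Agent.S59.NMP.H134.LocValStatement)
    (hH : Fermat.Agent.S59.NMP.H134.PeuHopfStatement) :
    Fermat.Agent.S59.NMP.H134.LocFlatStatement := by
  intro p _ hp2 A _ _ _ _ _ ρ hdet P hP L hL σ hσ z hz
  obtain ⟨v, hv0, hvpeu⟩ := hV p hp2 A ρ hdet P hP L hL σ hσ z hz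
  refine ⟨v, hv0, ?_⟩
  intro B _ _ f hf hfsurj hfv
  rw [Fermat.Agent.S59.H779.isFlatAt_iff_flatLevel]
  have hresB : Finite (ResidueField B) := by
    haveI : IsLocalHom f := hf
    refine Finite.of_surjective (ResidueField.map f) ?_
    intro y
    obtain ⟨b, rfl⟩ := IsLocalRing.residue_surjective y
    obtain ⟨a, rfl⟩ := hfsurj b
    exact ⟨IsLocalRing.residue A a, ResidueField.map_residue f a⟩
  refine ⟨hresB, ?_⟩
  intro Ibar hIbar
  haveI := hIbar
  have hfin : Finite (A ⧸ Ibar.comap f) :=
    Finite.of_injective (Ideal.quotientMap Ibar f le_rfl) (Ideal.quotientMap_injective)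
  have hvI : v ∈ Ibar.comap f := by
    rw [Ideal.mem_comap, hfv]
    exact Ibar.zero_mem
  have hlev : Fermat.Agent.S59.H779.FlatLevel p ρ (Ibar.comap f) :=
    hH p hp2 A ρ hdet P hP L hL _ hfin (hvpeu _ hfin hvI)
  exact Fermat.Agent.S59.H779.FlatLevel.baseChange (Fermat.Agent.S59.H659.hopfSubquot_closed p)
    (Fermat.Agent.S59.H659.hopfProd_closed p) f hf hlev

end Fermat.Agent.S59.NMP.H254
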