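import Fermat.Agent.S59.NMP.H254.SelGlue
import Fermat.Agent.S59.NMP.H254.Compact
import Fermat.Agent.S59.NMP.H254.LocFlat
import Fermat.Agent.S59.NMP.H649.ValFin
import Fermat.Agent.S59.NMP.H601.PeuHopf

/-!
# Row S59, cell NMP, leaf SEL — CLOSED (assembly, helper254)

`selP : NMP.SelStatement`, unconditional:

    VALFIN   `NMP.H649.valFin`        (helper649)   finite-level Kummer valuation element
    LOCVAL   `locVal_of_valFin`       (Compact.lean)  compactness
    PEUHOPF  `NMP.H601.peuHopf`       (helper601)   peu ramifié level ⟹ Hopf model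
    LOCFLAT  `locFlat_of`             (LocFlat.lean)
    glue     `sel_of_locFlat`         (SelGlue.lean)  deformation theory + count
-/

set_option autoImplicit false

namespace Fermat.Agent.S59.NMP.H254

/-- `LOCVAL`, unconditional. -/
theorem locVal : Fermat.Agent.S59.NMP.H134.LocValStatement :=
  locVal_of_valFin Fermat.Agent.S59.NMP.H649.valFin

/-- `LOCFLAT`, unconditional. -/
theorem locFlat : Fermat.Agent.S59.NMP.H134.LocFlatStatement :=
  locFlat_of locVal Fermat.Agent.S59.NMP.H601.peuHopf

/-- **Leaf SEL of the cell NMP**, unconditional. -/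
theorem selP : Fermat.Agent.S59.NMP.SelStatement :=
  sel_of_locFlat locFlat

end Fermat.Agent.S59.NMP.H254
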