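import Fermat.Agent.S59.H649.StrictSpec
import Fermat.Agent.S59.H659.SOMat
import Fermat.Agent.S56.H966.CondBC

/-!
# Row S59, cell NMP, leaf SEL (helper254): the ordinary line is unique

For an odd prime `p`, a representation `ρ` over a local ring with cyclotomic determinant and a
place `P | p`:

* `ordLine_unique` : two ordinary lines of `ρ` at `P` coincide (an inertial `τ` with
  `ε(τ) ≢ 1 mod p` acts on an ordinary line by `det ρ(τ)`, and `det ρ(τ) - 1` is a unit);
* `exists_quotient_scalar` : `σ ∈ D_P` acts on `V / L` by a scalar `z`;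
* `quotient_scalar_unique` : this scalar does not depend on the ordinary line;
* `IsOrdLineAt.baseChange`, `quotient_scalar_baseChange` : base change.
-/

set_option autoImplicit false
set_option linter.style.haveILetI false
set_option linter.unusedSectionVars false
set_option linter.unusedVariables false

noncomputable section

namespace Fermat.Agent.S59.NMP.H254

open IsLocalRing Fermat.Agent.S59.H649 Fermat.Agent.S59.H659
open scoped TensorProduct

section Line

variable {A : Type} [CommRing A] [IsLocalRing A]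

/-- Coordinates: a vector in the line spanned by `b 0` has vanishing second coordinate. -/
theorem repr_one_eq_zero_of_mem {V : Type*} [AddCommGroup V] [Module A V]
    (b : Module.Basis (Fin 2) A V) {w : V} (hw : w ∈ Submodule.span A {b 0}) :
    b.repr w 1 = 0 := by
  obtain ⟨c, rfl⟩ := Submodule.mem_span_singleton.mp hw
  rw [map_smul, Finsupp.smul_apply, Module.Basis.repr_self, Finsupp.single_apply,
    if_neg (by decide), smul_zero]

/-- Coordinates: a vector with vanishing second coordinate lies in the line spanned by `b 0`. -/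
theorem mem_of_repr_one_eq_zero {V : Type*} [AddCommGroup V] [Module A V]
    (b : Module.Basis (Fin 2) A V) {w : V} (hw : b.repr w 1 = 0) :
    w ∈ Submodule.span A {b 0} := by
  have h1 := b.sum_repr w
  rw [Fin.sum_univ_two, hw, zero_smul, add_zero] at h1
  rw [← h1]
  exact Submodule.smul_mem _ _ (Submodule.mem_span_singleton_self _)

/-- `σ ∈ D_P` acts on the quotient by an ordinary line by a scalar. -/
theorem exists_quotient_scalar {ρ : GaloisRepAdic A} {P : ValuationSubring Qb}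
    {L : Submodule A ρ.V} (hL : IsOrdLineAt ρ P L) {σ : GQ}
    (hσ : σ ∈ P.decompositionSubgroup ℚ) : ∃ z : A, ∀ w : ρ.V, ρ.ρ σ w - z • w ∈ L := by
  obtain ⟨b, rfl⟩ := hL.basis
  refine ⟨b.repr (ρ.ρ σ (b 1)) 1, fun w => ?_⟩
  apply mem_of_repr_one_eq_zero b
  have h0 : b.repr (ρ.ρ σ (b 0)) 1 = 0 :=
    repr_one_eq_zero_of_mem b (hL.stable σ hσ _ (Submodule.mem_span_singleton_self _))
  have hw := b.sum_repr w
  rw [Fin.sum_univ_two] at hw
  conv_lhs => rw [← hw]
  simp only [map_add, map_smul, map_sub, Finsupp.coe_sub, Finsupp.coe_add, Finsupp.coe_smul,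
    Pi.sub_apply, Pi.add_apply, Pi.smul_apply, smul_eq_mul, Module.Basis.repr_self,
    Finsupp.single_apply, h0]
  simp
  ring

/-- The scalar by which `σ` acts on `V / L` is determined by `L`. -/
theorem quotient_scalar_unique_of_line {ρ : GaloisRepAdic A} {P : ValuationSubring Qb}
    {L : Submodule A ρ.V} (hL : IsOrdLineAt ρ P L) {f : ρ.V →ₗ[A] ρ.V} {z₁ z₂ : A}
    (h₁ : ∀ w : ρ.V, f w - z₁ • w ∈ L) (h₂ : ∀ w : ρ.V, f w - z₂ • w ∈ L) : z₁ = z₂ := by
  obtain ⟨b, rfl⟩ := hL.basis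
  have h3 : (z₂ - z₁) • b 1 ∈ Submodule.span A {b 0} := by
    have := Submodule.sub_mem _ (h₁ (b 1)) (h₂ (b 1))
    rw [sub_sub_sub_cancel_left, ← sub_smul] at this
    exact this
  have h4 := repr_one_eq_zero_of_mem b h3
  rw [map_smul, Finsupp.smul_apply, Module.Basis.repr_self, Finsupp.single_apply,
    if_pos rfl, smul_eq_mul, mul_one] at h4
  exact (sub_eq_zero.mp h4).symm

/-- **The ordinary line is unique** (one inclusion). -/
theorem ordLine_le {p : ℕ} (hp : p.Prime) (hp2 : p ≠ 2) {ρ : GaloisRepAdic A}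
    (hdet : ρ.DetIsCyclotomic p) {P : ValuationSubring Qb} (hP : P.LiesOverPrime p)
    {L₁ L₂ : Submodule A ρ.V} (h₁ : IsOrdLineAt ρ P L₁) (h₂ : IsOrdLineAt ρ P L₂) :
    L₁ ≤ L₂ := by
  obtain ⟨τ, hτ, hτ'⟩ := exists_inertia_cycExp_ne_one p hp hp2 P hP
  obtain ⟨a, ha⟩ := exists_isCycExp p hp.ne_zero τ
  have ha' : ¬ a ≡ 1 [MOD p] := hτ' a ha
  have hτD : τ ∈ P.decompositionSubgroup ℚ := mem_decomposition_of_mem_inertia hτ
  have hd1 := hdet.2 1 τ a (by rw [pow_one]; exact ha)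
  have hd2 : LinearMap.det (ρ.ρ τ) - (a : A) ∈ maximalIdeal A := by
    obtain ⟨c, hc⟩ := Ideal.mem_span_singleton'.mp hd1
    rw [← hc, pow_one]
    exact Ideal.mul_mem_left _ _ hdet.1
  have hu : IsUnit ((a : A) - 1) := isUnit_natCast_sub_one hp hdet.1 ha'
  have hdu : IsUnit (LinearMap.det (ρ.ρ τ) - 1) := by
    by_contra hcon
    have h7 : LinearMap.det (ρ.ρ τ) - 1 ∈ maximalIdeal A := hcon
    have h8 : (a : A) - 1 ∈ maximalIdeal A := by
      have := Ideal.sub_mem _ h7 hd2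
      rwa [sub_sub_sub_cancel_left] at this
    exact h8 hu
  obtain ⟨b, rfl⟩ := h₁.basis
  -- the matrix of `ρ τ` in the basis `b`
  have h00 : b.repr (ρ.ρ τ (b 0)) 1 = 0 :=
    repr_one_eq_zero_of_mem b (h₁.stable τ hτD _ (Submodule.mem_span_singleton_self _))
  have h11 : b.repr (ρ.ρ τ (b 1)) 1 = 1 := by
    have := repr_one_eq_zero_of_mem b (h₁.inertia τ hτ (b 1))
    rw [map_sub, Finsupp.sub_apply, Module.Basis.repr_self, Finsupp.single_apply, if_pos rfl,
      sub_eq_zero] at this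
    exact this
  have hdet' : LinearMap.det (ρ.ρ τ) = b.repr (ρ.ρ τ (b 0)) 0 := by
    rw [← LinearMap.det_toMatrix b, Matrix.det_fin_two]
    simp only [LinearMap.toMatrix_apply, h00, h11, mul_one, mul_zero, sub_zero]
  -- `ρ τ (b 0) = det • b 0`
  have hb0 : ρ.ρ τ (b 0) = LinearMap.det (ρ.ρ τ) • b 0 := by
    have h1 := b.sum_repr (ρ.ρ τ (b 0))
    rw [Fin.sum_univ_two, h00, zero_smul, add_zero] at h1
    rw [hdet', h1]
  have hmem : (LinearMap.det (ρ.ρ τ) - 1) • b 0 ∈ L₂ := by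
    have := h₂.inertia τ hτ (b 0)
    rw [hb0] at this
    rw [sub_smul, one_smul]
    exact this
  rw [Submodule.span_le, Set.singleton_subset_iff, SetLike.mem_coe]
  obtain ⟨u, hu'⟩ := hdu
  have := Submodule.smul_mem L₂ (↑u⁻¹ : A) hmem
  rwa [← hu', smul_smul, Units.inv_mul, one_smul] at this

/-- **The ordinary line is unique.** -/
theorem ordLine_unique {p : ℕ} (hp : p.Prime) (hp2 : p ≠ 2) {ρ : GaloisRepAdic A}
    (hdet : ρ.DetIsCyclotomic p) {P : ValuationSubring Qb} (hP : P.LiesOverPrime p)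
    {L₁ L₂ : Submodule A ρ.V} (h₁ : IsOrdLineAt ρ P L₁) (h₂ : IsOrdLineAt ρ P L₂) :
    L₁ = L₂ :=
  le_antisymm (ordLine_le hp hp2 hdet hP h₁ h₂) (ordLine_le hp hp2 hdet hP h₂ h₁)

/-- **The scalar on the unramified quotient is canonical.** -/
theorem quotient_scalar_unique {p : ℕ} (hp : p.Prime) (hp2 : p ≠ 2) {ρ : GaloisRepAdic A}
    (hdet : ρ.DetIsCyclotomic p) {P : ValuationSubring Qb} (hP : P.LiesOverPrime p)
    {L₁ L₂ : Submodule A ρ.V} (h₁ : IsOrdLineAt ρ P L₁) (h₂ : IsOrdLineAt ρ P L₂)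
    {f : ρ.V →ₗ[A] ρ.V} {z₁ z₂ : A}
    (hz₁ : ∀ w : ρ.V, f w - z₁ • w ∈ L₁) (hz₂ : ∀ w : ρ.V, f w - z₂ • w ∈ L₂) : z₁ = z₂ := by
  have hL := ordLine_unique hp hp2 hdet hP h₁ h₂
  subst hL
  exact quotient_scalar_unique_of_line h₁ hz₁ hz₂

end Line

section BaseChange

variable {A : Type} [CommRing A] [IsLocalRing A] {B : Type} [CommRing B] [IsLocalRing B]

/-- Base change of an ordinary line together with the scalar on the quotient. -/
theorem exists_ordLine_baseChange (φ : A →+* B) (hφ : IsLocalHom φ) {ρ : GaloisRepAdic A}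
    {P : ValuationSubring Qb} {L : Submodule A ρ.V} (hL : IsOrdLineAt ρ P L) {σ : GQ} {z : A}
    (hz : ∀ w : ρ.V, ρ.ρ σ w - z • w ∈ L) :
    ∃ L' : Submodule B (ρ.baseChangeAlong φ hφ).V, IsOrdLineAt (ρ.baseChangeAlong φ hφ) P L' ∧
      ∀ w : (ρ.baseChangeAlong φ hφ).V, (ρ.baseChangeAlong φ hφ).ρ σ w - φ z • w ∈ L' := by
  letI : Algebra A B := φ.toAlgebra
  obtain ⟨b, rfl⟩ := hL.basis
  refine ⟨(Submodule.span B {(1 : B) ⊗ₜ[A] b 0} : Submodule B (B ⊗[A] ρ.V)),
    ⟨⟨b.baseChange B, Fermat.Agent.S56.H966.span_eq_span_baseChange φ b⟩, ?_, ?_⟩, ?_⟩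
  · intro τ hτ v hv
    exact Fermat.Agent.S56.H966.baseChange_mem_span_of_mem φ (b 0) (ρ.ρ τ) (hL.stable τ hτ) v hv
  · intro τ hτ (w : B ⊗[A] ρ.V)
    have := Fermat.Agent.S56.H966.baseChange_sub_smul_mem φ (b 0) (ρ.ρ τ) 1
      (fun v => by rw [one_smul]; exact hL.inertia τ hτ v) w
    rw [map_one, one_smul] at this
    exact this
  · intro (w : B ⊗[A] ρ.V)
    exact Fermat.Agent.S56.H966.baseChange_sub_smul_mem φ (b 0) (ρ.ρ σ) z hz w

/-- Transport of an ordinary line, together with the scalar on the quotient, along an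
equivalence. -/
theorem exists_ordLine_of_isEquiv {ρ₁ ρ₂ : GaloisRepAdic A} (he : ρ₁.IsEquiv ρ₂)
    {P : ValuationSubring Qb} {L : Submodule A ρ₁.V} (hL : IsOrdLineAt ρ₁ P L) {σ : GQ} {z : A}
    (hz : ∀ w : ρ₁.V, ρ₁.ρ σ w - z • w ∈ L) :
    ∃ L' : Submodule A ρ₂.V, IsOrdLineAt ρ₂ P L' ∧ ∀ w : ρ₂.V, ρ₂.ρ σ w - z • w ∈ L' := by
  obtain ⟨e⟩ := he
  obtain ⟨b, rfl⟩ := hL.basis
  have hmem : ∀ {u : ρ₁.V}, u ∈ Submodule.span A {b 0} →
      e.toLinearEquiv u ∈ Submodule.span A {e.toLinearEquiv (b 0)} := by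
    intro u hu
    obtain ⟨a, rfl⟩ := Submodule.mem_span_singleton.mp hu
    rw [map_smul]
    exact Submodule.smul_mem _ _ (Submodule.mem_span_singleton_self _)
  refine ⟨Submodule.span A {e.toLinearEquiv (b 0)}, ⟨⟨b.map e.toLinearEquiv, ?_⟩, ?_, ?_⟩, ?_⟩
  · rw [Module.Basis.map_apply]
  · intro τ hτ v hv
    obtain ⟨a, rfl⟩ := Submodule.mem_span_singleton.mp hv
    rw [map_smul, ← e.map_apply]
    exact Submodule.smul_mem _ _ (hmem (hL.stable τ hτ _ (Submodule.mem_span_singleton_self _)))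
  · intro τ hτ w
    have := hmem (hL.inertia τ hτ (e.toLinearEquiv.symm w))
    rwa [map_sub, e.map_apply, LinearEquiv.apply_symm_apply] at this
  · intro w
    have := hmem (hz (e.toLinearEquiv.symm w))
    rwa [map_sub, e.map_apply, map_smul, LinearEquiv.apply_symm_apply] at this

end BaseChange

end Fermat.Agent.S59.NMP.H254
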