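import Fermat.Agent.S59.NMP.H134.SelSpec
import Fermat.Agent.S59.H659.SigmaCond
import Fermat.Agent.Lib.Cheb.H643.FrobAt
import Fermat.Agent.S59.NM.H254.SurjUniv
import Fermat.Agent.S59.NMP.H254.OrdLine

/-!
# Row S59, cell NMP, leaf SEL (helper254): the deformation-theoretic glue

`sel_of_locFlat : NMP.H134.LocFlatStatement → NMP.SelStatement`.

Ring side, no duality: `R'` the universal ordinary ring, `R` the universal flat ring,
`β : R' → R` compatible.  `β` is surjective (`NM.H254.surjective_of_compatible`); LOCFLAT gives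
`v ∈ R'` with `(z² - 1) v = 0` (`z` = scalar of a Frobenius on the unramified quotient) such
that the universal ordinary deformation is flat modulo `v`, hence `ker β ≤ (v)`
(`NM.H254.ker_le_of_cond`); the ordinary line is unique, so `x (β z) = α`; the class of `v`
generates the kernel of `Φ_{R'} → Φ_R` and is killed by `α² - 1`
(`NM.H254.card_cot_le_of_cond_principal`).
-/

set_option autoImplicit false
set_option linter.style.haveILetI false
set_option linter.unusedSectionVars false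
set_option linter.unusedVariables false

noncomputable section

namespace Fermat.Agent.S59.NMP.H254

open IsLocalRing GaloisRep Fermat.Agent.S53 Fermat.Agent.S59.Arch Fermat.Agent.S59.H649
  Fermat.Agent.S59.NM.H254

/-- **NMP-SEL from LOCFLAT.** -/
theorem sel_of_locFlat (hLF : Fermat.Agent.S59.NMP.H134.LocFlatStatement) :
    Fermat.Agent.S59.NMP.SelStatement := by
  intro p _ 𝒪 _ _ _ _ _ _ ρbar Smin h Sig hSig hSigP hord D D' β hβ hβρ x hx α hα hα1 hfin
  have hp : p.Prime := Fact.out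
  have hp2 := h.hp2
  have h𝒟 := Fermat.Agent.S59.H659.isDeformationCondition_sigmaCond 𝒪 p hp hp2 .flat Smin Sig
  have h𝒟' := Fermat.Agent.S59.H659.isDeformationCondition_sigmaCond 𝒪 p hp hp2 .ord Smin Sig
  obtain ⟨P, hP, L₂, hb₂, hD₂, hI₂, hF₂⟩ := hα
  have hL₂ : IsOrdLineAt (D.ρ.baseChangeAlong (x : D.R →+* 𝒪) hx) P L₂ := ⟨hb₂, hD₂, hI₂⟩
  have hcond' : sigmaCond 𝒪 p .ord Smin Sig D'.ρ := D'.isOfType
  have hdet' : D'.ρ.DetIsCyclotomic p := hcond'.1.1
  have hord' : D'.ρ.IsOrdinaryAt p := hcond'.1.2.1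
  obtain ⟨L', hb', hD', hI'⟩ := hord' P hP
  have hL' : IsOrdLineAt D'.ρ P L' := ⟨hb', hD', hI'⟩
  obtain ⟨σ, hσ⟩ := Fermat.Agent.Lib.Cheb.H643.exists_isFrobeniusAt p hp P hP
  have hσD := hσ.mem_decompositionSubgroup
  obtain ⟨z, hz⟩ := exists_quotient_scalar hL' hσD
  haveI : Finite (ResidueField D'.R) :=
    Finite.of_surjective _ (residueField_map_bijective D'.instIsLocalHom D'.residue_surjective).2
  obtain ⟨v, hzv, hflat⟩ := hLF p hp2 D'.R D'.ρ hdet' P hP L' hL' σ hσD z hz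
  -- `x (β z) = α`
  have hx' : IsLocalHom ((x.comp β : D'.R →ₐ[𝒪] 𝒪) : D'.R →+* 𝒪) :=
    H113.isLocalHom_algHom (⟨fun a ha => ha⟩ : IsLocalHom (algebraMap 𝒪 𝒪))
      (fun y => by
        obtain ⟨a, ha⟩ := residue_surjective y
        exact ⟨a, ha⟩) _
  obtain ⟨L₁, hL₁, hz₁⟩ := exists_ordLine_baseChange _ hx' hL' hz
  have e : (D'.ρ.baseChangeAlong ((x.comp β : D'.R →ₐ[𝒪] 𝒪) : D'.R →+* 𝒪) hx').IsEquiv
      (D.ρ.baseChangeAlong (x : D.R →+* 𝒪) hx) :=
    H113.isEquiv_trans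
      (H113.isEquiv_symm (H113.baseChangeAlong_comp_isEquiv' (β : D'.R →+* D.R) hβ
        (x : D.R →+* 𝒪) hx _ hx' rfl D'.ρ))
      (H113.isEquiv_baseChangeAlong (x : D.R →+* 𝒪) hx hβρ)
  obtain ⟨L₂', hL₂', hz₂'⟩ := exists_ordLine_of_isEquiv e hL₁ hz₁
  have hcond : sigmaCond 𝒪 p .flat Smin Sig D.ρ := D.isOfType
  have hdet₂ : (D.ρ.baseChangeAlong (x : D.R →+* 𝒪) hx).DetIsCyclotomic p :=
    Fermat.Agent.S56.H966.detIsCyclotomic_baseChangeAlong _ hx hcond.1.1
  have hzα : (x.comp β) z = α :=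
    quotient_scalar_unique hp hp2 hdet₂ hP hL₂' hL₂ hz₂' (hF₂ σ hσ)
  have hval : (x.comp β) (z ^ 2 - 1) = α ^ 2 - 1 := by
    rw [map_sub, map_pow, map_one, hzα]
  have hu : (x.comp β) (z ^ 2 - 1) ≠ 0 := by
    rw [hval]
    exact sub_ne_zero.mpr hα1
  haveI := hfin
  have key := card_cot_le_of_cond_principal h𝒟 h𝒟' D D' β hβ hβρ x v (z ^ 2 - 1) hzv hu
    (fun hloc hmk => by
      haveI := hloc
      have hmk0 : Ideal.Quotient.mk (Ideal.span {v}) v = 0 :=
        Ideal.Quotient.eq_zero_iff_mem.mpr (Ideal.subset_span rfl)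
      have hfl := hflat (D'.R ⧸ Ideal.span {v}) (Ideal.Quotient.mk (Ideal.span {v})) hmk
        Ideal.Quotient.mk_surjective hmk0
      exact ⟨⟨Fermat.Agent.S56.H966.detIsCyclotomic_baseChangeAlong _ hmk hdet', hfl,
        fun q hq hqS => Fermat.Agent.S56.H966.isUnramifiedAt_baseChangeAlong _ hmk
          (hcond'.1.2.2 q hq hqS)⟩,
        fun q hqS hq hqp => Fermat.Agent.S56.H966.isUnipotentOnInertiaAt_baseChangeAlong _ hmk
          (hcond'.2 q hqS hq hqp)⟩)
  rw [hval] at key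
  exact key

end Fermat.Agent.S59.NMP.H254
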